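/-
Fermat/Agent/MW/NorthA85/Reduced.lean (helper85) -- programme MW (S17), brick NC-A, first half.

Reduced representatives of divisor classes of degree zero, relative to a base place `oo`:
every `x : Pic0 K F` is `[D - r•oo]` for an effective `D` of degree `r ≤ g`; for the minimal such
`r = redDeg x` the divisor `D = redDiv x` is UNIQUE, does not contain `oo`, and is stable under
every semilinear automorphism fixing `oo` and `x`.  Abstract in the Riemann inequality.
-/
import Mathlib
import Fermat.Agent.RR.LSpace
import Fermat.Prelude.Def_AlgebraicCurve_BaseChangeGalois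

set_option autoImplicit false

open AlgebraicCurve

namespace Fermat.Agent.MW.NorthA85

open Fermat.Agent.RR.LSpace Fermat.Agent.X0.FF

variable {K F : Type*} [Field K] [Field F] [Algebra K F]

/-! ### Classes -/

theorem mk_eq_mk_iff (D E : Divisor.degZero (K := K) (F := F)) :
    Pic0.mk D = Pic0.mk E ↔ (D : Divisor K F) - E ∈ Divisor.principal (K := K) (F := F) := by
  unfold Pic0.mk
  rw [QuotientAddGroup.eq, AddSubgroup.mem_addSubgroupOf]
  have h : ((-D + E : Divisor.degZero (K := K) (F := F)) : Divisor K F) = -((D : Divisor K F) - E) := by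
    push_cast; abel
  rw [h, neg_mem_iff]

/-- the divisor of `f` is principal -/
theorem divOf_mem_principal (H : LHyp K F) {f : F} (hf : f ≠ 0) :
    divOf H hf ∈ Divisor.principal (K := K) (F := F) :=
  ⟨f, hf, fun v => divOf_apply H hf v⟩

variable (oo : Place K F)

/-- `x` is the class of `D - r • oo` with `D` effective of degree `r`. -/
def Represents (x : Pic0 K F) (r : ℕ) (D : Divisor K F) : Prop :=
  0 ≤ D ∧ Divisor.degree D = r ∧ ∃ D0 : Divisor.degZero (K := K) (F := F), Pic0.mk D0 = x ∧
    D - (r : ℤ) • Finsupp.single oo (1 : ℤ) - D0 ∈ Divisor.principal (K := K) (F := F)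

variable {oo}

theorem Represents.nonneg {x : Pic0 K F} {r : ℕ} {D : Divisor K F} (h : Represents oo x r D) :
    0 ≤ D := h.1

theorem Represents.degree_eq {x : Pic0 K F} {r : ℕ} {D : Divisor K F} (h : Represents oo x r D) :
    Divisor.degree D = r := h.2.1

/-- two divisors representing the same class with the same `r` differ by a principal divisor -/
theorem Represents.sub_mem_principal {x : Pic0 K F} {r : ℕ} {D D' : Divisor K F}
    (h : Represents oo x r D) (h' : Represents oo x r D') :
    D' - D ∈ Divisor.principal (K := K) (F := F) := by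
  obtain ⟨-, -, D0, hD0, hp⟩ := h
  obtain ⟨-, -, D0', hD0', hp'⟩ := h'
  have h0 : (D0' : Divisor K F) - D0 ∈ Divisor.principal (K := K) (F := F) :=
    (mk_eq_mk_iff D0' D0).mp (hD0'.trans hD0.symm)
  have : D' - D = (D' - (r : ℤ) • Finsupp.single oo (1 : ℤ) - D0')
      - (D - (r : ℤ) • Finsupp.single oo (1 : ℤ) - D0) + ((D0' : Divisor K F) - D0) := by abel
  rw [this]
  exact add_mem (sub_mem hp' hp) h0

/-- the class is determined by `(r, D)` -/
theorem Represents.unique_class {x y : Pic0 K F} {r : ℕ} {D : Divisor K F}
    (h : Represents oo x r D) (h' : Represents oo y r D) : x = y := by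
  obtain ⟨-, -, D0, hD0, hp⟩ := h
  obtain ⟨-, -, D0', hD0', hp'⟩ := h'
  rw [← hD0, ← hD0', mk_eq_mk_iff]
  have : (D0 : Divisor K F) - D0' = (D - (r : ℤ) • Finsupp.single oo (1 : ℤ) - D0')
      - (D - (r : ℤ) • Finsupp.single oo (1 : ℤ) - D0) := by abel
  rw [this]
  exact sub_mem hp' hp

section Riemann

variable (H : LHyp K F) (g : ℕ)
  (hR : ∀ D : Divisor K F, Divisor.degree D + 1 - g ≤ Module.finrank K (riemannRochSpace D))

include H hR in
/-- Every class is represented by an effective divisor of degree `g` (Riemann's inequality). -/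
theorem exists_represents_genus (x : Pic0 K F) : ∃ D, Represents oo x g D := by
  obtain ⟨D0, rfl⟩ := Pic0.mk_surjective x
  set E : Divisor K F := (D0 : Divisor K F) + (g : ℤ) • Finsupp.single oo (1 : ℤ) with hE
  have hdegE : Divisor.degree E = g := by
    rw [hE, map_add, map_zsmul, degree_single H, Divisor.mem_degZero.mp D0.2]
    simp
  have hfin : FiniteDimensional K (riemannRochSpace E) := finiteDimensional_L H E
  have hpos : 0 < Module.finrank K (riemannRochSpace E) := by
    have := hR E
    rw [hdegE] at this
    omega
  obtain ⟨⟨f, hfE⟩, hf⟩ := Module.finrank_pos_iff_exists_ne_zero.mp hpos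
  have hf0 : f ≠ 0 := fun h => hf (Subtype.ext h)
  refine ⟨E + divOf H hf0, ?_, ?_, D0, rfl, ?_⟩
  · intro v
    have := (mem_L_iff hf0).mp hfE v
    rw [Finsupp.add_apply, divOf_apply]
    simp only [Finsupp.coe_zero, Pi.zero_apply]
    omega
  · rw [map_add, degree_divOf, hdegE, add_zero]
  · have : E + divOf H hf0 - (g : ℤ) • Finsupp.single oo (1 : ℤ) - D0 = divOf H hf0 := by
      rw [hE]; abel
    rw [this]
    exact divOf_mem_principal H hf0

end Riemann

section Reduced

variable (H : LHyp K F) (g : ℕ)
  (hR : ∀ D : Divisor K F, Divisor.degree D + 1 - g ≤ Module.finrank K (riemannRochSpace D))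

variable (oo) in
include H hR in
theorem exists_represents (x : Pic0 K F) : ∃ r D, Represents oo x r D :=
  ⟨g, exists_represents_genus H g hR x⟩

open Classical in
variable (oo) in
/-- the minimal degree of an effective representative of `x` relative to `oo` -/
noncomputable def redDeg (x : Pic0 K F) : ℕ := Nat.find (exists_represents oo H g hR x)

open Classical in
variable (oo) in
/-- the reduced representative of `x` relative to `oo` -/
noncomputable def redDiv (x : Pic0 K F) : Divisor K F :=
  (Nat.find_spec (exists_represents oo H g hR x)).choose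

open Classical in
theorem represents_redDiv (x : Pic0 K F) :
    Represents oo x (redDeg oo H g hR x) (redDiv oo H g hR x) :=
  (Nat.find_spec (exists_represents oo H g hR x)).choose_spec

open Classical in
theorem redDeg_le_genus (x : Pic0 K F) : redDeg oo H g hR x ≤ g :=
  Nat.find_min' (exists_represents oo H g hR x) (exists_represents_genus H g hR x)

open Classical in
theorem redDeg_le {x : Pic0 K F} {r : ℕ} {D : Divisor K F} (h : Represents oo x r D) :
    redDeg oo H g hR x ≤ r :=
  Nat.find_min' (exists_represents oo H g hR x) ⟨D, h⟩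

include H in
/-- removing `oo` from a representative lowers the degree -/
theorem Represents.sub_single {x : Pic0 K F} {r : ℕ} {D : Divisor K F} (h : Represents oo x r D)
    (hoo : 1 ≤ D oo) : ∃ r', r' + 1 = r ∧ Represents oo x r' (D - Finsupp.single oo (1 : ℤ)) := by
  obtain ⟨hD, hdeg, D0, hD0, hp⟩ := h
  have hD' : 0 ≤ D - Finsupp.single oo (1 : ℤ) := by
    intro v
    rw [Finsupp.sub_apply]
    simp only [Finsupp.coe_zero, Pi.zero_apply]
    by_cases hv : v = oo
    · subst hv; rw [Finsupp.single_eq_same]; omega
    · rw [Finsupp.single_eq_of_ne hv]; have := hD v; simp at this; omega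
  have hdeg' : Divisor.degree (D - Finsupp.single oo (1 : ℤ)) = (r : ℤ) - 1 := by
    rw [map_sub, hdeg, degree_single H]
  have hr : 1 ≤ r := by
    have := degree_nonneg H hD'
    rw [hdeg'] at this
    omega
  refine ⟨r - 1, by omega, hD', ?_, D0, hD0, ?_⟩
  · rw [hdeg']; push_cast [hr]; ring
  · have : D - Finsupp.single oo (1 : ℤ) - ((r - 1 : ℕ) : ℤ) • Finsupp.single oo (1 : ℤ) - D0
        = D - (r : ℤ) • Finsupp.single oo (1 : ℤ) - D0 := by
      push_cast [hr]
      rw [sub_smul, one_smul]; abel
    rw [this]; exact hp

include H in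
/-- the reduced representative does not contain `oo` -/
theorem redDiv_apply_oo (x : Pic0 K F) : redDiv oo H g hR x oo = 0 := by
  have hrep := represents_redDiv H g hR x (oo := oo)
  by_contra hne
  have h0 : 0 ≤ redDiv oo H g hR x oo := by
    have := hrep.nonneg oo; simpa using this
  have h1 : 1 ≤ redDiv oo H g hR x oo := by omega
  obtain ⟨r', hr', hrep'⟩ := hrep.sub_single H h1
  have := redDeg_le H g hR hrep'
  omega

end Reduced

section Unique

variable (H : LHyp K F) (g : ℕ)
  (hR : ∀ D : Divisor K F, Divisor.degree D + 1 - g ≤ Module.finrank K (riemannRochSpace D))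

include H in
/-- If `L(D)` has dimension at least two then `L(D - oo)` is nonzero. -/
theorem exists_ne_zero_mem_L_sub_single (D : Divisor K F)
    (h2 : 2 ≤ Module.finrank K (riemannRochSpace D)) :
    ∃ u : F, u ≠ 0 ∧ u ∈ riemannRochSpace (D - Finsupp.single oo (1 : ℤ)) := by
  have hfin : FiniteDimensional K (riemannRochSpace (D - Finsupp.single oo (1 : ℤ))) :=
    finiteDimensional_L H _
  have h1 := (finrank_L_add_single_le H (D - Finsupp.single oo (1 : ℤ)) oo).2
  rw [sub_add_cancel] at h1
  have hpos : 0 < Module.finrank K (riemannRochSpace (D - Finsupp.single oo (1 : ℤ))) := by omega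
  obtain ⟨⟨u, hu⟩, hne⟩ := Module.finrank_pos_iff_exists_ne_zero.mp hpos
  exact ⟨u, fun h => hne (Subtype.ext h), hu⟩

include H in
/-- **Uniqueness of the reduced representative.** -/
theorem Represents.eq_of_minimal {x : Pic0 K F} {r : ℕ} {D D' : Divisor K F}
    (h : Represents oo x r D) (h' : Represents oo x r D')
    (hmin : ∀ r' E, Represents oo x r' E → r ≤ r') : D = D' := by
  by_contra hne
  -- `D' - D = div h`
  obtain ⟨f, hf0, hf⟩ := h.sub_mem_principal h'
  have hfD : f ∈ riemannRochSpace D := by
    rw [mem_L_iff hf0]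
    intro v
    have h1 := hf v
    rw [Finsupp.sub_apply] at h1
    have h2 := h'.nonneg v
    simp only [Finsupp.coe_zero, Pi.zero_apply] at h2
    omega
  have h1D : (1 : F) ∈ riemannRochSpace D := by
    rw [mem_L_iff one_ne_zero]
    intro v
    have h2 := h.nonneg v
    simp only [Finsupp.coe_zero, Pi.zero_apply] at h2
    rw [AlgebraicCurve.Place.ord_one]
    omega
  have hfin : FiniteDimensional K (riemannRochSpace D) := finiteDimensional_L H D
  -- `f` is not constant
  have hnc : ∀ c : K, f ≠ algebraMap K F c := by
    intro c hc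
    apply hne
    ext v
    have h1 := hf v
    rw [Finsupp.sub_apply, hc, ffp_ord_algebraMap] at h1
    omega
  have h2 : 2 ≤ Module.finrank K (riemannRochSpace D) := by
    by_contra hlt
    have hle : Module.finrank K (riemannRochSpace D) ≤ 1 := by omega
    obtain ⟨w, hw⟩ := finrank_le_one_iff.mp hle
    obtain ⟨a, ha⟩ := hw ⟨1, h1D⟩
    obtain ⟨b, hb⟩ := hw ⟨f, hfD⟩
    have ha' : a • (w : F) = 1 := congrArg Subtype.val ha
    have hb' : b • (w : F) = f := congrArg Subtype.val hb
    have ha0 : a ≠ 0 := by rintro rfl; simp at ha'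
    have hw' : (w : F) = algebraMap K F a⁻¹ := by
      rw [Algebra.smul_def] at ha'
      rw [map_inv₀]
      exact eq_inv_of_mul_eq_one_right ha'
    apply hnc (b * a⁻¹)
    rw [← hb', hw', Algebra.smul_def, map_mul]
  obtain ⟨u, hu0, hu⟩ := exists_ne_zero_mem_L_sub_single (oo := oo) H D h2
  -- a representative of smaller degree
  obtain ⟨hD, hdeg, D0, hD0, hp⟩ := h
  have hE : 0 ≤ D - Finsupp.single oo (1 : ℤ) + divOf H hu0 := by
    intro v
    have := (mem_L_iff hu0).mp hu v
    rw [Finsupp.add_apply, divOf_apply]
    simp only [Finsupp.coe_zero, Pi.zero_apply]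
    omega
  have hdegE : Divisor.degree (D - Finsupp.single oo (1 : ℤ) + divOf H hu0) = (r : ℤ) - 1 := by
    rw [map_add, map_sub, hdeg, degree_single H, degree_divOf, add_zero]
  have hr : 1 ≤ r := by
    have := degree_nonneg H hE
    rw [hdegE] at this
    omega
  have hrep : Represents oo x (r - 1) (D - Finsupp.single oo (1 : ℤ) + divOf H hu0) := by
    refine ⟨hE, ?_, D0, hD0, ?_⟩
    · rw [hdegE]; push_cast [hr]; ring
    · have : D - Finsupp.single oo (1 : ℤ) + divOf H hu0
          - ((r - 1 : ℕ) : ℤ) • Finsupp.single oo (1 : ℤ) - D0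
          = (D - (r : ℤ) • Finsupp.single oo (1 : ℤ) - D0) + divOf H hu0 := by
        push_cast [hr]
        rw [sub_smul, one_smul]; abel
      rw [this]
      exact add_mem hp (divOf_mem_principal H hu0)
  have := hmin _ _ hrep
  omega

include H in
/-- Any representative of minimal degree is the reduced representative. -/
theorem eq_redDiv {x : Pic0 K F} {D : Divisor K F}
    (h : Represents oo x (redDeg oo H g hR x) D) : D = redDiv oo H g hR x :=
  h.eq_of_minimal H (represents_redDiv H g hR x) fun _ _ hE => redDeg_le H g hR hE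

include H in
/-- The class is determined by the reduced representative (and its degree). -/
theorem eq_of_redDiv_eq {x y : Pic0 K F} (h : redDiv oo H g hR x = redDiv oo H g hR y) :
    x = y := by
  have hx := represents_redDiv H g hR x (oo := oo)
  have hy := represents_redDiv H g hR y (oo := oo)
  have hr : redDeg oo H g hR x = redDeg oo H g hR y := by
    have h1 := hx.degree_eq
    have h2 := hy.degree_eq
    rw [h] at h1
    exact_mod_cast h1.symm.trans h2
  rw [h, hr] at hx
  exact hx.unique_class hy

end Unique

section Galois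

open SemilinearAut

variable (H : LHyp K F) (g : ℕ)
  (hR : ∀ D : Divisor K F, Divisor.degree D + 1 - g ≤ Module.finrank K (riemannRochSpace D))

/-- Transport of representatives by a semilinear automorphism fixing `oo`. -/
theorem Represents.smul {x : Pic0 K F} {r : ℕ} {D : Divisor K F} (h : Represents oo x r D)
    (σ : SemilinearAut K F) (hoo : σ • oo = oo) : Represents oo (σ • x) r (σ • D) := by
  obtain ⟨hD, hdeg, D0, hD0, hp⟩ := h
  refine ⟨?_, ?_, SemilinearAut.degZeroSMulHom σ D0, ?_, ?_⟩
  · intro w
    rw [SemilinearAut.divisor_smul_apply]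
    exact hD _
  · rw [SemilinearAut.degree_smul, hdeg]
  · rw [← hD0]; exact (SemilinearAut.pic0_smul_mk σ D0).symm
  · have : σ • D - (r : ℤ) • Finsupp.single oo (1 : ℤ)
        - ((SemilinearAut.degZeroSMulHom σ D0 : Divisor.degZero (K := K) (F := F)) : Divisor K F)
        = σ • (D - (r : ℤ) • Finsupp.single oo (1 : ℤ) - D0) := by
      rw [SemilinearAut.coe_degZeroSMulHom, smul_sub, smul_sub, smul_comm σ (r : ℤ),
        SemilinearAut.smul_single, hoo]
    rw [this]
    exact SemilinearAut.smul_mem_principal σ hp

include H in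
/-- **Galois stability.** The reduced representative of a class fixed by `σ` is fixed by `σ`
(provided `σ` fixes the base place). -/
theorem smul_redDiv {x : Pic0 K F} (σ : SemilinearAut K F) (hoo : σ • oo = oo)
    (hx : σ • x = x) : σ • redDiv oo H g hR x = redDiv oo H g hR x := by
  have h := (represents_redDiv H g hR x (oo := oo)).smul σ hoo
  rw [hx] at h
  exact eq_redDiv H g hR h

include H in
/-- The support of the reduced representative of a fixed class is stable. -/
theorem smul_mem_support_redDiv {x : Pic0 K F} (σ : SemilinearAut K F) (hoo : σ • oo = oo)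
    (hx : σ • x = x) {v : Place K F} (hv : v ∈ (redDiv oo H g hR x).support) :
    σ • v ∈ (redDiv oo H g hR x).support := by
  rw [Finsupp.mem_support_iff] at hv ⊢
  have := SemilinearAut.divisor_smul_apply_smul σ (redDiv oo H g hR x) v
  rw [smul_redDiv H g hR σ hoo hx] at this
  rwa [this]

end Galois

section Finite

variable (H : LHyp K F) (g : ℕ)
  (hR : ∀ D : Divisor K F, Divisor.degree D + 1 - g ≤ Module.finrank K (riemannRochSpace D))

include H in
/-- coefficients of an effective divisor are bounded by its degree -/
theorem apply_le_degree {D : Divisor K F} (hD : 0 ≤ D) (v : Place K F) :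
    D v ≤ Divisor.degree D := by
  classical
  rw [degree_eq_sum H]
  by_cases hv : v ∈ D.support
  · exact Finset.single_le_sum (f := fun w => D w) (fun w _ => by simpa using hD w) hv
  · rw [Finsupp.notMem_support_iff.mp hv]
    exact Finset.sum_nonneg fun w _ => by simpa using hD w

include H in
theorem redDiv_apply_nonneg (x : Pic0 K F) (v : Place K F) : 0 ≤ redDiv oo H g hR x v := by
  simpa using (represents_redDiv H g hR x (oo := oo)).nonneg v

include H in
theorem redDiv_apply_le (x : Pic0 K F) (v : Place K F) : redDiv oo H g hR x v ≤ g := by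
  have hrep := represents_redDiv H g hR x (oo := oo)
  have h1 := apply_le_degree H hrep.nonneg v
  rw [hrep.degree_eq] at h1
  have h2 := redDeg_le_genus H g hR x (oo := oo)
  omega

include H in
theorem card_support_redDiv_le (x : Pic0 K F) : (redDiv oo H g hR x).support.card ≤ g := by
  classical
  have hrep := represents_redDiv H g hR x (oo := oo)
  have h1 : ((redDiv oo H g hR x).support.card : ℤ) ≤ Divisor.degree (redDiv oo H g hR x) := by
    rw [degree_eq_sum H, Finset.card_eq_sum_ones, Nat.cast_sum]
    refine Finset.sum_le_sum fun v hv => ?_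
    have h0 := redDiv_apply_nonneg H g hR x v (oo := oo)
    have hne := Finsupp.mem_support_iff.mp hv
    push_cast
    omega
  rw [hrep.degree_eq] at h1
  have h2 := redDeg_le_genus H g hR x (oo := oo)
  omega

include H in
/-- **Finiteness.** Only finitely many classes have their reduced representative supported in a
given finite set of places. -/
theorem finite_setOf_support_redDiv_subset (S : Finset (Place K F)) :
    {x : Pic0 K F | (redDiv oo H g hR x).support ⊆ S}.Finite := by
  classical
  have hinj : Set.InjOn (fun x : Pic0 K F => redDiv oo H g hR x)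
      {x : Pic0 K F | (redDiv oo H g hR x).support ⊆ S} :=
    fun x _ y _ hxy => eq_of_redDiv_eq H g hR hxy
  refine Set.Finite.of_finite_image ?_ hinj
  refine Set.Finite.subset (Finset.finite_toSet (S.finsupp fun _ => Finset.Icc (0 : ℤ) g)) ?_
  rintro _ ⟨x, hx, rfl⟩
  rw [Finset.mem_coe, Finset.mem_finsupp_iff]
  refine ⟨hx, fun v _ => ?_⟩
  rw [Finset.mem_Icc]
  exact ⟨redDiv_apply_nonneg H g hR x v, redDiv_apply_le H g hR x v⟩

end Finite

end Fermat.Agent.MW.NorthA85
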