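/-
Fermat/Agent/MW/NorthA85/Inst.lean (helper85) -- programme MW (S17), brick NC-A.
Instantiation of `Reduced.lean` for a function field with a transcendental generator over an
algebraically closed field of characteristic zero (`X0.FF.IsGen K x`), e.g.
`(AlgebraicClosure ℚ, modularFunctionFieldBar N)`.
-/
import Mathlib
import Fermat.Agent.MW.NorthA85.Reduced
import Fermat.Agent.RR.LHypGen

set_option autoImplicit false

open AlgebraicCurve

namespace Fermat.Agent.MW.NorthA85

open Fermat.Agent.RR.LSpace Fermat.Agent.X0.FF Fermat.Agent.RR.LHypGen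

variable {K F : Type*} [Field K] [Field F] [Algebra K F] [IsAlgClosed K] [CharZero K] {x : F}

/-- Riemann's inequality with a natural number constant. -/
theorem exists_riemann_bound (hx : IsGen K x) : ∃ g : ℕ, ∀ D : Divisor K F,
    Divisor.degree D + 1 - g ≤ Module.finrank K (riemannRochSpace D) := by
  obtain ⟨γ, hγ⟩ := riemann_inequality_of_isGen hx
  refine ⟨γ.toNat, fun D => ?_⟩
  have h1 := hγ D
  have h2 : γ ≤ (γ.toNat : ℤ) := Int.self_le_toNat γ
  omega

/-- a constant for Riemann's inequality (an upper bound for the genus) -/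
noncomputable def riemannBound (hx : IsGen K x) : ℕ := (exists_riemann_bound hx).choose

theorem riemannBound_spec (hx : IsGen K x) (D : Divisor K F) :
    Divisor.degree D + 1 - riemannBound hx ≤ Module.finrank K (riemannRochSpace D) :=
  (exists_riemann_bound hx).choose_spec D

variable (oo : Place K F)

/-- the degree of the reduced representative -/
noncomputable def redDegGen (hx : IsGen K x) (y : Pic0 K F) : ℕ :=
  redDeg oo (lHyp_of_isGen hx) (riemannBound hx) (riemannBound_spec hx) y

/-- the reduced representative `D_y` of the class `y` relative to the base place `oo` -/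
noncomputable def redDivGen (hx : IsGen K x) (y : Pic0 K F) : Divisor K F :=
  redDiv oo (lHyp_of_isGen hx) (riemannBound hx) (riemannBound_spec hx) y

variable {oo}

theorem represents_redDivGen (hx : IsGen K x) (y : Pic0 K F) :
    Represents oo y (redDegGen oo hx y) (redDivGen oo hx y) :=
  represents_redDiv _ _ _ y

theorem redDegGen_le (hx : IsGen K x) (y : Pic0 K F) : redDegGen oo hx y ≤ riemannBound hx :=
  redDeg_le_genus _ _ _ y

theorem redDivGen_apply_oo (hx : IsGen K x) (y : Pic0 K F) : redDivGen oo hx y oo = 0 :=
  redDiv_apply_oo _ _ _ y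

theorem redDivGen_nonneg (hx : IsGen K x) (y : Pic0 K F) : 0 ≤ redDivGen oo hx y :=
  (represents_redDivGen hx y).nonneg

theorem redDivGen_injective (hx : IsGen K x) :
    Function.Injective (redDivGen oo hx : Pic0 K F → Divisor K F) :=
  fun _ _ h => eq_of_redDiv_eq _ _ _ h

theorem card_support_redDivGen_le (hx : IsGen K x) (y : Pic0 K F) :
    (redDivGen oo hx y).support.card ≤ riemannBound hx :=
  card_support_redDiv_le _ _ _ y

theorem smul_redDivGen (hx : IsGen K x) {y : Pic0 K F} (σ : SemilinearAut K F)
    (hoo : σ • oo = oo) (hy : σ • y = y) : σ • redDivGen oo hx y = redDivGen oo hx y :=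
  smul_redDiv _ _ _ σ hoo hy

theorem smul_mem_support_redDivGen (hx : IsGen K x) {y : Pic0 K F} (σ : SemilinearAut K F)
    (hoo : σ • oo = oo) (hy : σ • y = y) {v : Place K F}
    (hv : v ∈ (redDivGen oo hx y).support) : σ • v ∈ (redDivGen oo hx y).support :=
  smul_mem_support_redDiv _ _ _ σ hoo hy hv

theorem finite_setOf_support_redDivGen_subset (hx : IsGen K x) (S : Finset (Place K F)) :
    {y : Pic0 K F | (redDivGen oo hx y).support ⊆ S}.Finite :=
  finite_setOf_support_redDiv_subset _ _ _ S

/-- `D_y` as a finitely supported function with values in `ℕ`. -/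
noncomputable def redDivNat (hx : IsGen K x) (y : Pic0 K F) : Place K F →₀ ℕ :=
  (redDivGen oo hx y).mapRange Int.toNat Int.toNat_zero

theorem redDivNat_apply (hx : IsGen K x) (y : Pic0 K F) (v : Place K F) :
    ((redDivNat (oo := oo) hx y v : ℕ) : ℤ) = redDivGen oo hx y v := by
  rw [redDivNat, Finsupp.mapRange_apply]
  exact Int.toNat_of_nonneg (by simpa using redDivGen_nonneg hx y v)

theorem redDivNat_injective (hx : IsGen K x) :
    Function.Injective (redDivNat (oo := oo) hx : Pic0 K F → (Place K F →₀ ℕ)) := by
  intro y y' h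
  apply redDivGen_injective (oo := oo) hx
  ext v
  rw [← redDivNat_apply hx y v, ← redDivNat_apply hx y' v, h]

theorem support_redDivNat (hx : IsGen K x) (y : Pic0 K F) :
    (redDivNat (oo := oo) hx y).support = (redDivGen oo hx y).support := by
  ext v
  rw [Finsupp.mem_support_iff, Finsupp.mem_support_iff, ← redDivNat_apply hx y v]
  exact_mod_cast Iff.rfl

/-- The points of `D_y` as a multiset (with multiplicities), the form consumed by
`NorthAbs10.finite_setOf_le_of_divisorData`. -/
noncomputable def redPoints (hx : IsGen K x) (y : Pic0 K F) : Multiset (Place K F) :=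
  Finsupp.toMultiset (redDivNat (oo := oo) hx y)

theorem redPoints_injective (hx : IsGen K x) :
    Function.Injective (redPoints (oo := oo) hx : Pic0 K F → Multiset (Place K F)) :=
  fun _ _ h => redDivNat_injective hx (by
    classical
    have := congrArg Multiset.toFinsupp h
    rwa [redPoints, redPoints, Finsupp.toMultiset_toFinsupp, Finsupp.toMultiset_toFinsupp] at this)

theorem mem_redPoints (hx : IsGen K x) (y : Pic0 K F) (v : Place K F) :
    v ∈ redPoints (oo := oo) hx y ↔ v ∈ (redDivGen oo hx y).support := by
  rw [redPoints, Finsupp.mem_toMultiset, support_redDivNat]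

theorem card_redPoints (hx : IsGen K x) (y : Pic0 K F) :
    Multiset.card (redPoints (oo := oo) hx y) = redDegGen oo hx y := by
  classical
  have H := lHyp_of_isGen hx
  have hdeg := (represents_redDivGen (oo := oo) hx y).degree_eq
  rw [degree_eq_sum H] at hdeg
  rw [redPoints, Finsupp.card_toMultiset, Finsupp.sum, support_redDivNat]
  have : ((∑ v ∈ (redDivGen oo hx y).support, redDivNat (oo := oo) hx y v : ℕ) : ℤ)
      = (redDegGen oo hx y : ℤ) := by
    rw [← hdeg, Nat.cast_sum]
    exact Finset.sum_congr rfl fun v _ => redDivNat_apply hx y v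
  exact_mod_cast this

theorem card_redPoints_le (hx : IsGen K x) (y : Pic0 K F) :
    Multiset.card (redPoints (oo := oo) hx y) ≤ riemannBound hx := by
  rw [card_redPoints]; exact redDegGen_le hx y

theorem oo_notMem_redPoints (hx : IsGen K x) (y : Pic0 K F) :
    oo ∉ redPoints (oo := oo) hx y := by
  rw [mem_redPoints, Finsupp.mem_support_iff, redDivGen_apply_oo]
  simp

theorem smul_mem_redPoints (hx : IsGen K x) {y : Pic0 K F} (σ : SemilinearAut K F)
    (hoo : σ • oo = oo) (hy : σ • y = y) {v : Place K F}
    (hv : v ∈ redPoints (oo := oo) hx y) : σ • v ∈ redPoints (oo := oo) hx y := by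
  rw [mem_redPoints] at hv ⊢
  exact smul_mem_support_redDivGen hx σ hoo hy hv

end Fermat.Agent.MW.NorthA85
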