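/-
Fermat/Agent/MW/NorthA85/Points.lean (helper85) -- programme MW (S17), brick NC-A / NC-B bridge.

Function-field level facts about the classes `[P_1 + ... + P_r - r•oo]` of multisets of places
(the values of the sum maps `σ_r : C^r → J` on points):
additivity, `AJ(oo) = 0`, and the comparison with the reduced representative:
* `redDegGen_le_card`  : a class of the form `[Σ_{P ∈ l} P - |l|•oo]` has `redDeg ≤ |l|`
  (so `β x ∉ W_(r-1)` for `r = redDeg x`);
* `eq_redPoints_of_card` : if moreover `|l| = redDeg` then `l = redPoints` (the fibre of `σ_r`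
  over `β x` consists of the orderings of `redPoints x`);
* `pointsClass_redPoints` : `x = [Σ_{P ∈ redPoints x} P - r•oo]`.
-/
import Mathlib
import Fermat.Agent.MW.NorthA85.Inst

set_option autoImplicit false

open AlgebraicCurve

namespace Fermat.Agent.MW.NorthA85

open Fermat.Agent.RR.LSpace Fermat.Agent.X0.FF Fermat.Agent.RR.LHypGen

section Abstract

variable {K F : Type*} [Field K] [Field F] [Algebra K F]

/-- the effective divisor `Σ_{P ∈ l} P` of a multiset of places -/
noncomputable def pointsDiv (l : Multiset (Place K F)) : Divisor K F :=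
  (l.map fun P => Finsupp.single P (1 : ℤ)).sum

@[simp] theorem pointsDiv_zero : pointsDiv (0 : Multiset (Place K F)) = 0 := by
  simp [pointsDiv]

@[simp] theorem pointsDiv_cons (P : Place K F) (l : Multiset (Place K F)) :
    pointsDiv (P ::ₘ l) = Finsupp.single P (1 : ℤ) + pointsDiv l := by
  simp [pointsDiv]

@[simp] theorem pointsDiv_add (l l' : Multiset (Place K F)) :
    pointsDiv (l + l') = pointsDiv l + pointsDiv l' := by
  simp [pointsDiv]

theorem pointsDiv_singleton (P : Place K F) :
    pointsDiv ({P} : Multiset (Place K F)) = Finsupp.single P (1 : ℤ) := by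
  simp [pointsDiv]

open Classical in
theorem pointsDiv_apply (l : Multiset (Place K F)) (v : Place K F) :
    pointsDiv l v = (Multiset.count v l : ℤ) := by
  induction l using Multiset.induction_on with
  | empty => simp
  | cons P l ih =>
    rw [pointsDiv_cons, Finsupp.add_apply, ih, Multiset.count_cons, Finsupp.single_apply]
    by_cases h : v = P
    · subst h; simp; ring
    · have h' : ¬ P = v := fun e => h e.symm
      simp [h, h']

theorem pointsDiv_nonneg (l : Multiset (Place K F)) : 0 ≤ pointsDiv l := by
  intro v
  rw [pointsDiv_apply]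
  simp

theorem pointsDiv_injective :
    Function.Injective (pointsDiv : Multiset (Place K F) → Divisor K F) := by
  classical
  intro l l' h
  ext v
  have := DFunLike.congr_fun h v
  rw [pointsDiv_apply, pointsDiv_apply] at this
  exact_mod_cast this

theorem degree_pointsDiv (H : LHyp K F) (l : Multiset (Place K F)) :
    Divisor.degree (pointsDiv l) = (Multiset.card l : ℤ) := by
  induction l using Multiset.induction_on with
  | empty => simp
  | cons P l ih =>
    rw [pointsDiv_cons, map_add, ih, degree_single H, Multiset.card_cons]
    push_cast; ring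

variable (oo : Place K F)

/-- the degree-zero divisor `Σ_{P ∈ l} P - |l|•oo` -/
noncomputable def pointsDegZero (H : LHyp K F) (l : Multiset (Place K F)) :
    Divisor.degZero (K := K) (F := F) :=
  ⟨pointsDiv l - (Multiset.card l : ℤ) • Finsupp.single oo (1 : ℤ), by
    rw [Divisor.mem_degZero, map_sub, map_zsmul, degree_pointsDiv H, degree_single H]
    simp⟩

/-- the class `[Σ_{P ∈ l} P - |l|•oo]` -/
noncomputable def pointsClass (H : LHyp K F) (l : Multiset (Place K F)) : Pic0 K F :=
  Pic0.mk (pointsDegZero oo H l)

variable {oo}

theorem coe_pointsDegZero (H : LHyp K F) (l : Multiset (Place K F)) :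
    (pointsDegZero oo H l : Divisor K F)
      = pointsDiv l - (Multiset.card l : ℤ) • Finsupp.single oo (1 : ℤ) := rfl

theorem pointsDegZero_add (H : LHyp K F) (l l' : Multiset (Place K F)) :
    pointsDegZero oo H (l + l') = pointsDegZero oo H l + pointsDegZero oo H l' := by
  apply Subtype.ext
  rw [AddSubgroup.coe_add, coe_pointsDegZero, coe_pointsDegZero, coe_pointsDegZero,
    pointsDiv_add, Multiset.card_add]
  push_cast
  rw [add_smul]
  abel

@[simp] theorem pointsClass_zero (H : LHyp K F) :
    pointsClass oo H (0 : Multiset (Place K F)) = 0 := by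
  have : pointsDegZero oo H (0 : Multiset (Place K F)) = 0 := by
    apply Subtype.ext
    rw [coe_pointsDegZero]; simp
  rw [pointsClass, this]; rfl

theorem pointsClass_add (H : LHyp K F) (l l' : Multiset (Place K F)) :
    pointsClass oo H (l + l') = pointsClass oo H l + pointsClass oo H l' := by
  rw [pointsClass, pointsDegZero_add, Pic0.mk_add]; rfl

/-- `AJ(oo) = 0` -/
@[simp] theorem pointsClass_singleton_oo (H : LHyp K F) :
    pointsClass oo H ({oo} : Multiset (Place K F)) = 0 := by
  have : pointsDegZero oo H ({oo} : Multiset (Place K F)) = 0 := by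
    apply Subtype.ext
    rw [coe_pointsDegZero, pointsDiv_singleton]; simp
  rw [pointsClass, this]; rfl

theorem pointsClass_cons (H : LHyp K F) (P : Place K F) (l : Multiset (Place K F)) :
    pointsClass oo H (P ::ₘ l) = pointsClass oo H {P} + pointsClass oo H l := by
  rw [← Multiset.singleton_add, pointsClass_add]

/-- adding the base point does not change the class: `W_(r-1) ⊆ W_r` and
`σ_r(.., oo, ..) ∈ W_(r-1)` -/
@[simp] theorem pointsClass_cons_oo (H : LHyp K F) (l : Multiset (Place K F)) :
    pointsClass oo H (oo ::ₘ l) = pointsClass oo H l := by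
  rw [pointsClass_cons, pointsClass_singleton_oo, zero_add]

theorem pointsClass_replicate_oo (H : LHyp K F) (n : ℕ) :
    pointsClass oo H (Multiset.replicate n oo) = 0 := by
  induction n with
  | zero => simp
  | succ n ih => rw [Multiset.replicate_succ, pointsClass_cons_oo, ih]

/-- the class of a sum of a list of places (the value of `σ_r` at a point of `C^r`) -/
theorem pointsClass_coe_list (H : LHyp K F) (L : List (Place K F)) :
    pointsClass oo H (L : Multiset (Place K F))
      = (L.map fun P => pointsClass oo H ({P} : Multiset (Place K F))).sum := by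
  induction L with
  | nil => simp
  | cons P L ih =>
    rw [← Multiset.cons_coe, pointsClass_cons, ih, List.map_cons, List.sum_cons]

theorem represents_pointsClass (H : LHyp K F) (l : Multiset (Place K F)) :
    Represents oo (pointsClass oo H l) (Multiset.card l) (pointsDiv l) :=
  ⟨pointsDiv_nonneg l, degree_pointsDiv H l, pointsDegZero oo H l, rfl, by
    rw [coe_pointsDegZero, sub_self]; exact zero_mem _⟩

/-- Galois action on the classes of points -/
theorem smul_pointsDiv (σ : SemilinearAut K F) (l : Multiset (Place K F)) :
    σ • pointsDiv l = pointsDiv (l.map fun P => σ • P) := by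
  induction l using Multiset.induction_on with
  | empty => simp
  | cons P l ih =>
    rw [Multiset.map_cons, pointsDiv_cons, pointsDiv_cons, smul_add, ih]
    congr 1
    exact Finsupp.mapDomain_single

end Abstract

section Gen

variable {K F : Type*} [Field K] [Field F] [Algebra K F] [IsAlgClosed K] [CharZero K] {x : F}
variable {oo : Place K F}

/-- the class `[Σ_{P ∈ l} P - |l|•oo]`, for a function field with a generator -/
noncomputable def pointsClassGen (oo : Place K F) (hx : IsGen K x) (l : Multiset (Place K F)) :
    Pic0 K F :=
  pointsClass oo (lHyp_of_isGen hx) l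

theorem pointsClassGen_add (hx : IsGen K x) (l l' : Multiset (Place K F)) :
    pointsClassGen oo hx (l + l') = pointsClassGen oo hx l + pointsClassGen oo hx l' :=
  pointsClass_add _ l l'

@[simp] theorem pointsClassGen_zero (hx : IsGen K x) :
    pointsClassGen oo hx (0 : Multiset (Place K F)) = 0 := pointsClass_zero _

@[simp] theorem pointsClassGen_cons_oo (hx : IsGen K x) (l : Multiset (Place K F)) :
    pointsClassGen oo hx (oo ::ₘ l) = pointsClassGen oo hx l := pointsClass_cons_oo _ l

theorem pointsClassGen_cons (hx : IsGen K x) (P : Place K F) (l : Multiset (Place K F)) :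
    pointsClassGen oo hx (P ::ₘ l) = pointsClassGen oo hx {P} + pointsClassGen oo hx l :=
  pointsClass_cons _ P l

theorem pointsClassGen_coe_list (hx : IsGen K x) (L : List (Place K F)) :
    pointsClassGen oo hx (L : Multiset (Place K F))
      = (L.map fun P => pointsClassGen oo hx ({P} : Multiset (Place K F))).sum :=
  pointsClass_coe_list _ L

theorem represents_pointsClassGen (hx : IsGen K x) (l : Multiset (Place K F)) :
    Represents oo (pointsClassGen oo hx l) (Multiset.card l) (pointsDiv l) :=
  represents_pointsClass _ l

/-- `β x ∉ W_(r-1)` for `r = redDeg x`: a class of `r'` points has `redDeg ≤ r'`. -/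
theorem redDegGen_le_card (hx : IsGen K x) {y : Pic0 K F} {l : Multiset (Place K F)}
    (h : pointsClassGen oo hx l = y) : redDegGen oo hx y ≤ Multiset.card l := by
  subst h
  exact redDeg_le _ _ _ (represents_pointsClassGen hx l)

/-- the divisor of the reduced points is the reduced divisor -/
theorem pointsDiv_redPoints (hx : IsGen K x) (y : Pic0 K F) :
    pointsDiv (redPoints (oo := oo) hx y) = redDivGen oo hx y := by
  classical
  ext v
  rw [pointsDiv_apply]
  change (Multiset.count v (Finsupp.toMultiset (redDivNat (oo := oo) hx y)) : ℤ) = _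
  rw [Finsupp.count_toMultiset, redDivNat_apply]

/-- the fibre of `σ_r` over `β y`, `r = redDeg y`, consists of the orderings of `redPoints y` -/
theorem eq_redPoints_of_card (hx : IsGen K x) {y : Pic0 K F} {l : Multiset (Place K F)}
    (h : pointsClassGen oo hx l = y) (hc : Multiset.card l = redDegGen oo hx y) :
    l = redPoints (oo := oo) hx y := by
  subst h
  apply pointsDiv_injective
  rw [pointsDiv_redPoints]
  have hrep := represents_pointsClassGen (oo := oo) hx l
  rw [hc] at hrep
  exact eq_redDiv _ _ _ hrep

/-- `y = [Σ_{P ∈ redPoints y} P - r•oo]` -/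
theorem pointsClassGen_redPoints (hx : IsGen K x) (y : Pic0 K F) :
    pointsClassGen oo hx (redPoints (oo := oo) hx y) = y := by
  have h1 := represents_pointsClassGen (oo := oo) hx (redPoints (oo := oo) hx y)
  rw [pointsDiv_redPoints, card_redPoints] at h1
  exact h1.unique_class (represents_redDivGen hx y)

/-- in the fibre of `σ_r` over `β y` with `r = redDeg y` no coordinate is `oo` -/
theorem oo_notMem_of_card (hx : IsGen K x) {y : Pic0 K F} {l : Multiset (Place K F)}
    (h : pointsClassGen oo hx l = y) (hc : Multiset.card l = redDegGen oo hx y) : oo ∉ l := by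
  rw [eq_redPoints_of_card hx h hc]
  exact oo_notMem_redPoints hx y

/-- `redDeg y = 0 ↔ y = 0` -/
theorem redDegGen_eq_zero_iff (hx : IsGen K x) (y : Pic0 K F) :
    redDegGen oo hx y = 0 ↔ y = 0 := by
  constructor
  · intro h0
    have h1 := pointsClassGen_redPoints (oo := oo) hx y
    have hc : redPoints (oo := oo) hx y = 0 := by
      rw [← Multiset.card_eq_zero, card_redPoints, h0]
    rw [hc, pointsClassGen_zero] at h1
    exact h1.symm
  · intro h0
    have := redDegGen_le_card (oo := oo) hx (y := y) (l := 0) (by rw [pointsClassGen_zero, h0])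
    simpa using this

end Gen

end Fermat.Agent.MW.NorthA85
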